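import Mathlib.Tactic.LinearCombination
import Mathlib.Tactic.FieldSimp
import Mathlib.Tactic.Ring
import Mathlib.Algebra.Field.Basic

set_option autoImplicit false

namespace Fermat.Agent.S51.Main

variable {K : Type*} [Field K]

/-- The `X_0(3)` relation: if `x₃` is a root of the 3-division polynomial then
`s = Δ / ψ₂(x₃)⁴` satisfies `c₄³ s = Δ (s + 27) (s + 3)³`, i.e. `j = (s+27)(s+3)³/s`. -/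
theorem j_identity (b₂ b₄ b₆ b₈ x₃ : K)
    (rel : 4*b₈ = b₂*b₆ - b₄^2)
    (h3 : 3*x₃^4 + b₂*x₃^3 + 3*b₄*x₃^2 + 3*b₆*x₃ + b₈ = 0)
    (hB3 : 4*x₃^3 + b₂*x₃^2 + 2*b₄*x₃ + b₆ ≠ 0)
    (s : K)
    (hs : s = (-b₂^2*b₈ - 8*b₄^3 - 27*b₆^2 + 9*b₂*b₄*b₆) / (4*x₃^3 + b₂*x₃^2 + 2*b₄*x₃ + b₆)^2) :
    (b₂^2 - 24*b₄)^3 * s
      = (-b₂^2*b₈ - 8*b₄^3 - 27*b₆^2 + 9*b₂*b₄*b₆) * (s + 27) * (s + 3)^3 := by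
  obtain ⟨β₂, hβ₂⟩ : ∃ β₂, β₂ = b₂ + 12*x₃ := ⟨_, rfl⟩
  obtain ⟨β₄, hβ₄⟩ : ∃ β₄, β₄ = b₄ + b₂*x₃ + 6*x₃^2 := ⟨_, rfl⟩
  obtain ⟨β₆, hβ₆⟩ : ∃ β₆, β₆ = 4*x₃^3 + b₂*x₃^2 + 2*b₄*x₃ + b₆ := ⟨_, rfl⟩
  have hβ₆0 : β₆ ≠ 0 := by rw [hβ₆]; exact hB3
  have f3 : β₂*β₆ = β₄^2 := by
    rw [hβ₆, hβ₄, hβ₂]; linear_combination 4 * h3 - rel
  have hc4 : b₂^2 - 24*b₄ = β₂^2 - 24*β₄ := by rw [hβ₄, hβ₂]; ring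
  have hΔ : -b₂^2*b₈ - 8*b₄^3 - 27*b₆^2 + 9*b₂*b₄*b₆ = β₄^3 - 27*β₆^2 := by
    rw [hβ₆, hβ₄]
    linear_combination (-b₂^2 + 12*b₂*x₃ + 36*b₄ + 72*x₃^2) * h3 + (-3*b₂*x₃ - 9*b₄ - 18*x₃^2) * rel
  rw [← hβ₆] at hs
  rw [hΔ] at hs ⊢
  rw [hc4]
  have hβ₂' : β₂ = β₄^2 / β₆ := by
    rw [eq_div_iff hβ₆0]; exact f3
  rw [hs, hβ₂']
  field_simp
  ring

end Fermat.Agent.S51.Main
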