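import Fermat.Agent.S51.Main.KeyNormal
import Mathlib.Tactic.Ring
import Mathlib.Tactic.Linarith

namespace Fermat.Agent.S51.Main

variable {K : Type*} [Field K]

/-- The key identity on `X_0(15)` in general `b`-coordinates.
`x₃` is the `x`-coordinate of a point of order 3, `x₅`, `x₅'` those of a point of order `5`
and of its double. -/
theorem key_general (b₂ b₄ b₆ b₈ x₃ x₅ x₅' : K)
    (rel : 4*b₈ = b₂*b₆ - b₄^2)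
    (h3 : 3*x₃^4 + b₂*x₃^3 + 3*b₄*x₃^2 + 3*b₆*x₃ + b₈ = 0)
    (h5a : x₅^4 - b₄*x₅^2 - 2*b₆*x₅ - b₈ = x₅' * (4*x₅^3 + b₂*x₅^2 + 2*b₄*x₅ + b₆))
    (h5b : x₅'^4 - b₄*x₅'^2 - 2*b₆*x₅' - b₈ = x₅ * (4*x₅'^3 + b₂*x₅'^2 + 2*b₄*x₅' + b₆))
    (hne : x₅ ≠ x₅')
    (hB5 : 4*x₅^3 + b₂*x₅^2 + 2*b₄*x₅ + b₆ ≠ 0)
    (hB3 : 4*x₃^3 + b₂*x₃^2 + 2*b₄*x₃ + b₆ ≠ 0)
    (h35 : x₃ ≠ x₅) (h35' : x₃ ≠ x₅')
    (s v : K)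
    (hs : s = (-b₂^2*b₈ - 8*b₄^3 - 27*b₆^2 + 9*b₂*b₄*b₆) / (4*x₃^3 + b₂*x₃^2 + 2*b₄*x₃ + b₆)^2)
    (hv : v = -(x₅ - x₅')^2 / ((x₃ - x₅)*(x₃ - x₅'))) :
    (v+1)*s^2 + 5*v^3*s - (v-9)*v^5 = 0 := by
  -- translated quantities
  obtain ⟨Q, hQdef⟩ : ∃ Q, Q = x₅' - x₅ := ⟨_, rfl⟩
  obtain ⟨X, hXdef⟩ : ∃ X, X = x₃ - x₅ := ⟨_, rfl⟩
  obtain ⟨β₂, hβ₂⟩ : ∃ β₂, β₂ = b₂ + 12*x₅ := ⟨_, rfl⟩
  obtain ⟨β₄, hβ₄⟩ : ∃ β₄, β₄ = b₄ + b₂*x₅ + 6*x₅^2 := ⟨_, rfl⟩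
  obtain ⟨β₆, hβ₆⟩ : ∃ β₆, β₆ = 4*x₅^3 + b₂*x₅^2 + 2*b₄*x₅ + b₆ := ⟨_, rfl⟩
  obtain ⟨β₈, hβ₈⟩ : ∃ β₈, β₈ = 3*x₅^4 + b₂*x₅^3 + 3*b₄*x₅^2 + 3*b₆*x₅ + b₈ := ⟨_, rfl⟩
  have hQ0 : Q ≠ 0 := by rw [hQdef]; exact sub_ne_zero.mpr (Ne.symm hne)
  have hX0 : X ≠ 0 := by rw [hXdef]; exact sub_ne_zero.mpr h35
  have hXQ0 : X - Q ≠ 0 := by
    rw [hXdef, hQdef]; intro h; apply h35'; linear_combination h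
  have hβ₆0 : β₆ ≠ 0 := by rw [hβ₆]; exact hB5
  have f1 : β₈ = -Q * β₆ := by
    rw [hβ₈, hβ₆, hQdef]; linear_combination (-1 : K) * h5a
  have f2 : Q^4 - β₄*Q^2 - 2*β₆*Q - β₈ = 0 := by
    rw [hβ₈, hβ₆, hβ₄, hQdef]; linear_combination h5b
  have f3 : 4*β₈ = β₂*β₆ - β₄^2 := by
    rw [hβ₈, hβ₆, hβ₄, hβ₂]; linear_combination rel
  have f4 : 3*X^4 + β₂*X^3 + 3*β₄*X^2 + 3*β₆*X + β₈ = 0 := by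
    rw [hβ₈, hβ₆, hβ₄, hβ₂, hXdef]; linear_combination h3
  have hBx : 4*x₃^3 + b₂*x₃^2 + 2*b₄*x₃ + b₆ = 4*X^3 + β₂*X^2 + 2*β₄*X + β₆ := by
    rw [hβ₆, hβ₄, hβ₂, hXdef]; ring
  have hΔ : -b₂^2*b₈ - 8*b₄^3 - 27*b₆^2 + 9*b₂*b₄*b₆
      = -β₂^2*β₈ - 8*β₄^3 - 27*β₆^2 + 9*β₂*β₄*β₆ := by
    rw [hβ₈, hβ₆, hβ₄, hβ₂]; linear_combination (6*b₂*x₅ + 36*x₅^2) * rel
  have hx35 : x₃ - x₅ = X := hXdef.symm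
  have hx35' : x₃ - x₅' = X - Q := by rw [hXdef, hQdef]; ring
  have hx55' : x₅ - x₅' = -Q := by rw [hQdef]; ring
  rw [hBx] at hB3 hs
  rw [hΔ] at hs
  rw [hx35, hx35', hx55'] at hv
  clear hBx hΔ hx35 hx35' hx55' h3 h5a h5b rel hB5 h35 h35' hne
  clear hβ₂ hβ₄ hβ₆ hβ₈ hQdef hXdef
  -- normal form parameters
  obtain ⟨R, hRdef⟩ : ∃ R, R = Q^2 - β₄ := ⟨_, rfl⟩
  have hβ₆R : β₆ = Q * R := by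
    have h : Q * (Q^3 - β₄*Q - β₆) = 0 := by rw [f1] at f2; linear_combination f2
    have h' : Q^3 - β₄*Q - β₆ = 0 := by
      rcases mul_eq_zero.mp h with h | h
      · exact absurd h hQ0
      · exact h
    rw [hRdef]; linear_combination -h'
  have hR0 : R ≠ 0 := by
    intro h; apply hβ₆0; rw [hβ₆R, h, mul_zero]
  obtain ⟨U, c, hU0, hc0, hQ, hR⟩ : ∃ U c : K, U ≠ 0 ∧ c ≠ 0 ∧ Q = U*c ∧ R = U^2*c :=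
    ⟨R/Q, Q^2/R, div_ne_zero hR0 hQ0, div_ne_zero (pow_ne_zero 2 hQ0) hR0,
      by field_simp, by field_simp⟩
  obtain ⟨ξ, hξ⟩ : ∃ ξ, X = U * ξ := ⟨X/U, by field_simp⟩
  have e4 : β₄ = U^2*(c^2 - c) := by
    have : β₄ = Q^2 - R := by rw [hRdef]; ring
    rw [this, hQ, hR]; ring
  have e6 : β₆ = U^3*c^2 := by rw [hβ₆R, hQ, hR]; ring
  have e8 : β₈ = -U^4*c^3 := by rw [f1, e6, hQ]; ring
  have e2 : β₂ = U*(c^2 - 6*c + 1) := by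
    have h : β₂ * (U^3*c^2) = U*(c^2 - 6*c + 1) * (U^3*c^2) := by
      rw [← e6]
      have := f3
      rw [e8, e4] at this
      rw [e6]
      rw [e6] at this
      linear_combination -this
    exact mul_right_cancel₀ (mul_ne_zero (pow_ne_zero 3 hU0) (pow_ne_zero 2 hc0)) h
  have hΨ : 3*ξ^4 + (c^2-6*c+1)*ξ^3 + 3*(c^2-c)*ξ^2 + 3*c^2*ξ - c^3 = 0 := by
    have h : U^4 * (3*ξ^4 + (c^2-6*c+1)*ξ^3 + 3*(c^2-c)*ξ^2 + 3*c^2*ξ - c^3) = 0 := by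
      rw [e2, e4, e6, e8, hξ] at f4; linear_combination f4
    rcases mul_eq_zero.mp h with h | h
    · exact absurd h (pow_ne_zero 4 hU0)
    · exact h
  have key := key_normal c ξ hΨ
  have hξ0 : ξ ≠ 0 := by
    intro h; apply hX0; rw [hξ, h, mul_zero]
  have hξc0 : ξ - c ≠ 0 := by
    intro h; apply hXQ0; rw [hξ, hQ]; linear_combination U * h
  have hB0 : 4*ξ^3 + (c^2-6*c+1)*ξ^2 + 2*(c^2-c)*ξ + c^2 ≠ 0 := by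
    intro h; apply hB3; rw [e2, e4, e6, hξ]; linear_combination U^3 * h
  have hs' : s = c^5*(c^2-11*c-1) / (4*ξ^3 + (c^2-6*c+1)*ξ^2 + 2*(c^2-c)*ξ + c^2)^2 := by
    have hden : 4*X^3 + β₂*X^2 + 2*β₄*X + β₆
        = U^3 * (4*ξ^3 + (c^2-6*c+1)*ξ^2 + 2*(c^2-c)*ξ + c^2) := by
      rw [e2, e4, e6, hξ]; ring
    have hnum : -β₂^2*β₈ - 8*β₄^3 - 27*β₆^2 + 9*β₂*β₄*β₆ = U^6 * (c^5*(c^2-11*c-1)) := by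
      rw [e2, e4, e6, e8]; ring
    rw [hs, hden, hnum, div_eq_div_iff (pow_ne_zero 2 (mul_ne_zero (pow_ne_zero 3 hU0) hB0))
      (pow_ne_zero 2 hB0)]
    ring
  have hv' : v = -c^2 / (ξ*(ξ-c)) := by
    rw [hv, hξ, hQ]
    field_simp
  have hD0 : ξ*(ξ-c) ≠ 0 := mul_ne_zero hξ0 hξc0
  clear hs hv
  generalize 4*ξ^3 + (c^2-6*c+1)*ξ^2 + 2*(c^2-c)*ξ + c^2 = Bx at key hB0 hs'
  generalize ξ*(ξ-c) = D at key hD0 hv'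
  generalize c^2-11*c-1 = δ at key hs'
  rw [hs', hv']
  have h1 : (-c^2 / D + 1) * (c^5 * δ / Bx^2)^2 + 5 * (-c^2 / D)^3 * (c^5 * δ / Bx^2)
      - (-c^2 / D - 9) * (-c^2 / D)^5
      = c^10 * ((D - c^2) * δ^2 * D^5 - 5*c*δ * Bx^2 * D^3 - (c^2 + 9*D) * Bx^4) / (D^6 * Bx^4) := by
    rw [eq_div_iff (mul_ne_zero (pow_ne_zero 6 hD0) (pow_ne_zero 4 hB0))]
    field_simp
    ring
  rw [h1, key, mul_zero, zero_div]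

end Fermat.Agent.S51.Main
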