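import Fermat.Agent.S51.Main.Galois
import Fermat.Agent.S51.Main.KeyGeneral
import Fermat.Agent.S51.Main.JIdentity

/-!
# S51: the rational invariants `s`, `v` attached to a pair of stable lines
-/

set_option autoImplicit false
set_option linter.unusedSectionVars false
set_option linter.style.haveILetI false

namespace Fermat.Agent.S51.Main

open WeierstrassCurve WeierstrassCurve.Affine WeierstrassCurve.Affine.Point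

noncomputable section

lemma EK_b₂ (W : WeierstrassCurve ℤ) : (EK W).b₂ = ((W.b₂ : ℤ) : Kb) := by
  simp [EK, WQ, WeierstrassCurve.baseChange, WeierstrassCurve.map_b₂]

lemma EK_b₄ (W : WeierstrassCurve ℤ) : (EK W).b₄ = ((W.b₄ : ℤ) : Kb) := by
  simp [EK, WQ, WeierstrassCurve.baseChange, WeierstrassCurve.map_b₄]

lemma EK_b₆ (W : WeierstrassCurve ℤ) : (EK W).b₆ = ((W.b₆ : ℤ) : Kb) := by
  simp [EK, WQ, WeierstrassCurve.baseChange, WeierstrassCurve.map_b₆]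

lemma EK_b₈ (W : WeierstrassCurve ℤ) : (EK W).b₈ = ((W.b₈ : ℤ) : Kb) := by
  simp [EK, WQ, WeierstrassCurve.baseChange, WeierstrassCurve.map_b₈]

lemma Bp_EK (W : WeierstrassCurve ℤ) (x : Kb) :
    Bp (EK W) x = 4*x^3 + ((W.b₂ : ℤ) : Kb)*x^2 + 2*((W.b₄ : ℤ) : Kb)*x + ((W.b₆ : ℤ) : Kb) := by
  unfold Bp; rw [EK_b₂, EK_b₄, EK_b₆]

lemma Ap_EK (W : WeierstrassCurve ℤ) (x : Kb) :
    Ap (EK W) x = x^4 - ((W.b₄ : ℤ) : Kb)*x^2 - 2*((W.b₆ : ℤ) : Kb)*x - ((W.b₈ : ℤ) : Kb) := by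
  unfold Ap; rw [EK_b₄, EK_b₆, EK_b₈]

lemma psi3_EK (W : WeierstrassCurve ℤ) (x : Kb) :
    psi3 (EK W) x = 3*x^4 + ((W.b₂ : ℤ) : Kb)*x^3 + 3*((W.b₄ : ℤ) : Kb)*x^2
      + 3*((W.b₆ : ℤ) : Kb)*x + ((W.b₈ : ℤ) : Kb) := by
  unfold psi3; rw [EK_b₂, EK_b₄, EK_b₆, EK_b₈]

/-- The symmetric function `v` of the `x`-coordinates is Galois-fixed. -/
lemma v_fixed (x₃ x₅ x₅' : Kb) (σ : Kb ≃ₐ[ℚ] Kb) (h3 : σ x₃ = x₃)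
    (h5 : (σ x₅ = x₅ ∧ σ x₅' = x₅') ∨ (σ x₅ = x₅' ∧ σ x₅' = x₅)) :
    σ (-(x₅ - x₅')^2 / ((x₃ - x₅)*(x₃ - x₅'))) = -(x₅ - x₅')^2 / ((x₃ - x₅)*(x₃ - x₅')) := by
  rw [map_div₀, map_neg, map_pow, map_sub, map_mul, map_sub, map_sub, h3]
  rcases h5 with ⟨h, h'⟩ | ⟨h, h'⟩
  · rw [h, h']
  · rw [h, h']
    congr 1
    · ring
    · ring

/-- If neither the mod `3` nor the mod `5` representation is irreducible, there are rational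
numbers `s`, `v` (the values of Hauptmoduln of `X₀(3)` and `X₀(5)`-type invariants) satisfying the
equation of `X₀(15)`, with `s` determining the `j`-invariant. -/
theorem exists_invariants (W : WeierstrassCurve ℤ) (hΔ : W.Δ ≠ 0)
    (h3 : ¬ W.ModRepIsIrreducible 3) (h5 : ¬ W.ModRepIsIrreducible 5) :
    ∃ s v : ℚ, s ≠ 0 ∧ v ≠ 0 ∧
      (W.c₄ : ℚ)^3 * s = (W.Δ : ℚ) * (s + 27) * (s + 3)^3 ∧
      (v+1)*s^2 + 5*v^3*s - (v-9)*v^5 = 0 := by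
  haveI : Fact (Nat.Prime 3) := ⟨Nat.prime_three⟩
  haveI : Fact (Nat.Prime 5) := ⟨Nat.prime_five⟩
  obtain ⟨P₃, hP₃, h3P, hσ3⟩ :=
    exists_stable_point W 3 (card_V3_le W) (nontrivial_V3 W hΔ) h3
  obtain ⟨P₅, hP₅, h5P, hσ5⟩ :=
    exists_stable_point W 5 (card_V5_le W) (nontrivial_V5 W hΔ) h5
  obtain ⟨x₃, y₃, hns₃, hP₃eq, hB₃, hψ₃⟩ := three_torsion_x hP₃ h3P
  obtain ⟨x₅, y₅, hns₅, x₅', y₅', hns₅', hP₅eq, hP₅2, hB₅, hB₅', hne, h5a, h5b⟩ :=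
    five_torsion_x hP₅ h5P
  have hx₃ : xc P₃ = x₃ := by rw [hP₃eq]; rfl
  have hx₅ : xc P₅ = x₅ := by rw [hP₅eq]; rfl
  have hx₅' : xc (P₅ + P₅) = x₅' := by rw [hP₅2]; rfl
  -- Galois action
  have hfix3 : ∀ σ : Kb ≃ₐ[ℚ] Kb, σ x₃ = x₃ := fun σ => by
    rw [← hx₃]; exact sigma_x_three W hP₃ h3P σ (hσ3 σ)
  have hfix5 : ∀ σ : Kb ≃ₐ[ℚ] Kb,
      (σ x₅ = x₅ ∧ σ x₅' = x₅') ∨ (σ x₅ = x₅' ∧ σ x₅' = x₅) := fun σ => by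
    rw [← hx₅, ← hx₅']; exact sigma_x_five W hP₅ h5P σ (hσ5 σ)
  -- the `x`-coordinates are distinct
  have h2P₅ : P₅ + P₅ ≠ 0 := by rw [hP₅2]; exact Point.some_ne_zero _
  have h35 : x₃ ≠ x₅ := by
    intro h
    have hxc : xc P₃ = xc P₅ := by rw [hx₃, hx₅, h]
    rcases eq_or_eq_neg_of_xc_eq hP₃ hP₅ hxc with h' | h'
    · exact hP₃ (eq_zero_of_three_five h3P h5P (Or.inl h'))
    · exact hP₃ (eq_zero_of_three_five h3P h5P (Or.inr (Or.inl h')))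
  have h35' : x₃ ≠ x₅' := by
    intro h
    have hxc : xc P₃ = xc (P₅ + P₅) := by rw [hx₃, hx₅', h]
    rcases eq_or_eq_neg_of_xc_eq hP₃ h2P₅ hxc with h' | h'
    · exact hP₃ (eq_zero_of_three_five h3P h5P (Or.inr (Or.inr (Or.inl h'))))
    · exact hP₃ (eq_zero_of_three_five h3P h5P (Or.inr (Or.inr (Or.inr h'))))
  -- rationality
  obtain ⟨q₃, hq₃⟩ := exists_rat_of_fixed x₃ hfix3
  obtain ⟨v, hv⟩ := exists_rat_of_fixed (-(x₅ - x₅')^2 / ((x₃ - x₅)*(x₃ - x₅')))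
    (fun σ => v_fixed x₃ x₅ x₅' σ (hfix3 σ) (hfix5 σ))
  -- the data over `ℚ`
  rw [Bp_EK] at hB₃ hB₅ hB₅'
  rw [psi3_EK] at hψ₃
  rw [Bp_EK, Ap_EK] at h5a h5b
  have rel : (4 : ℚ) * (W.b₈ : ℚ) = (W.b₂ : ℚ) * (W.b₆ : ℚ) - (W.b₄ : ℚ)^2 := by
    have := W.b_relation
    exact_mod_cast this
  have relK : (4 : Kb) * ((W.b₈ : ℤ) : Kb)
      = ((W.b₂ : ℤ) : Kb) * ((W.b₆ : ℤ) : Kb) - ((W.b₄ : ℤ) : Kb)^2 := by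
    have := W.b_relation
    exact_mod_cast this
  have hψ₃Q : 3*q₃^4 + (W.b₂ : ℚ)*q₃^3 + 3*(W.b₄ : ℚ)*q₃^2 + 3*(W.b₆ : ℚ)*q₃ + (W.b₈ : ℚ) = 0 := by
    rw [← hq₃] at hψ₃
    exact_mod_cast hψ₃
  have hB₃Q : 4*q₃^3 + (W.b₂ : ℚ)*q₃^2 + 2*(W.b₄ : ℚ)*q₃ + (W.b₆ : ℚ) ≠ 0 := by
    rw [← hq₃] at hB₃
    exact_mod_cast hB₃
  have hΔQ : (W.Δ : ℚ) = -(W.b₂ : ℚ)^2*(W.b₈ : ℚ) - 8*(W.b₄ : ℚ)^3 - 27*(W.b₆ : ℚ)^2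
      + 9*(W.b₂ : ℚ)*(W.b₄ : ℚ)*(W.b₆ : ℚ) := by
    simp only [WeierstrassCurve.Δ]
    push_cast
    ring
  have hc₄Q : (W.c₄ : ℚ) = (W.b₂ : ℚ)^2 - 24*(W.b₄ : ℚ) := by
    simp only [WeierstrassCurve.c₄]
    push_cast
    ring
  obtain ⟨s, hs⟩ : ∃ s : ℚ, s = (-(W.b₂ : ℚ)^2*(W.b₈ : ℚ) - 8*(W.b₄ : ℚ)^3 - 27*(W.b₆ : ℚ)^2
      + 9*(W.b₂ : ℚ)*(W.b₄ : ℚ)*(W.b₆ : ℚ))
      / (4*q₃^3 + (W.b₂ : ℚ)*q₃^2 + 2*(W.b₄ : ℚ)*q₃ + (W.b₆ : ℚ))^2 := ⟨_, rfl⟩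
  have hsK : ((s : ℚ) : Kb) = (-((W.b₂ : ℤ) : Kb)^2*((W.b₈ : ℤ) : Kb) - 8*((W.b₄ : ℤ) : Kb)^3
      - 27*((W.b₆ : ℤ) : Kb)^2 + 9*((W.b₂ : ℤ) : Kb)*((W.b₄ : ℤ) : Kb)*((W.b₆ : ℤ) : Kb))
      / (4*x₃^3 + ((W.b₂ : ℤ) : Kb)*x₃^2 + 2*((W.b₄ : ℤ) : Kb)*x₃ + ((W.b₆ : ℤ) : Kb))^2 := by
    rw [hs, ← hq₃]
    push_cast
    rfl
  have hj := j_identity (W.b₂ : ℚ) (W.b₄ : ℚ) (W.b₆ : ℚ) (W.b₈ : ℚ) q₃ rel hψ₃Q hB₃Q s hs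
  have hkey := key_general ((W.b₂ : ℤ) : Kb) ((W.b₄ : ℤ) : Kb) ((W.b₆ : ℤ) : Kb)
    ((W.b₈ : ℤ) : Kb) x₃ x₅ x₅' relK hψ₃ h5a.symm h5b.symm hne hB₅ hB₃ h35 h35'
    ((s : ℚ) : Kb) ((v : ℚ) : Kb) hsK hv
  have hkeyQ : (v+1)*s^2 + 5*v^3*s - (v-9)*v^5 = 0 := by exact_mod_cast hkey
  have hΔQ0 : (W.Δ : ℚ) ≠ 0 := by exact_mod_cast hΔ
  refine ⟨s, v, ?_, ?_, ?_, hkeyQ⟩
  · rw [hs, ← hΔQ]
    exact div_ne_zero hΔQ0 (pow_ne_zero 2 hB₃Q)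
  · intro hv0
    rw [hv0, Rat.cast_zero] at hv
    have h1 : (x₃ - x₅) * (x₃ - x₅') ≠ 0 :=
      mul_ne_zero (sub_ne_zero.mpr h35) (sub_ne_zero.mpr h35')
    have h2 : -(x₅ - x₅')^2 ≠ 0 := neg_ne_zero.mpr (pow_ne_zero 2 (sub_ne_zero.mpr hne))
    exact (div_ne_zero h2 h1) hv.symm
  · rw [hc₄Q, hΔQ]
    exact hj

end

end Fermat.Agent.S51.Main
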