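import Fermat.Agent.S51.Main.Setting

set_option autoImplicit false
set_option linter.unusedSectionVars false
set_option linter.style.haveILetI false

namespace Fermat.Agent.S51.Main

open WeierstrassCurve WeierstrassCurve.Affine WeierstrassCurve.Affine.Point Polynomial

noncomputable section

lemma xc_smul (W : WeierstrassCurve ℤ) (σ : Kb ≃ₐ[ℚ] Kb) (P : (EK W).Point) :
    xc (σ • P) = σ (xc P) := by
  rw [algEquiv_smul_def]
  match P with
  | .zero => simp [xc, Point.map]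
  | .some x y h => rfl

lemma coe_ne_zero_of_ne_zero {W : WeierstrassCurve ℤ} {n : ℕ} {P : Vn W n} (hP : P ≠ 0) :
    (P : (EK W).Point) ≠ 0 := by
  intro h; apply hP; exact Subtype.ext h

lemma nsmul_coe_eq_zero {W : WeierstrassCurve ℤ} {n : ℕ} (P : Vn W n) :
    n • (P : (EK W).Point) = 0 :=
  (mem_Vn_iff W n P).mp P.2

lemma card_roots_toFinset_le {F : Type*} [Field F] [DecidableEq F] (f : F[X]) :
    f.roots.toFinset.card ≤ f.natDegree :=
  (Multiset.toFinset_card_le _).trans (Polynomial.card_roots' f)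

lemma card_V_le_aux (W : WeierstrassCurve ℤ) (n : ℕ) (d : ℕ) (f : Kb[X]) (hf : f ≠ 0)
    (hd : f.natDegree ≤ d)
    (hroot : ∀ P : (EK W).Point, P ≠ 0 → n • P = 0 → f.eval (xc P) = 0) :
    Finite (Vn W n) ∧ Nat.card (Vn W n) ≤ 2 * d + 1 := by
  classical
  obtain ⟨h1, h2⟩ := finite_and_card_le (G := Vn W n) (fun P => xc (P : (EK W).Point))
    f.roots.toFinset
    (fun P hP => by
      rw [Multiset.mem_toFinset, mem_roots hf]
      exact hroot P (coe_ne_zero_of_ne_zero hP) (nsmul_coe_eq_zero P))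
    (fun P Q hP hQ hx => by
      rcases eq_or_eq_neg_of_xc_eq (coe_ne_zero_of_ne_zero hP) (coe_ne_zero_of_ne_zero hQ) hx
        with h | h
      · left; exact Subtype.ext h
      · right; exact Subtype.ext h)
  refine ⟨h1, h2.trans ?_⟩
  have := (card_roots_toFinset_le f).trans hd
  omega

lemma five_ne_zero_Kb : (5 : Kb) ≠ 0 := by norm_num
lemma three_ne_zero_Kb : (3 : Kb) ≠ 0 := by norm_num

lemma card_V3_le (W : WeierstrassCurve ℤ) :
    Finite (Vn W 3) ∧ Nat.card (Vn W 3) ≤ 3 ^ 2 := by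
  have h3' : ((3 : ℕ) : Kb) ≠ 0 := by exact_mod_cast three_ne_zero_Kb
  have := card_V_le_aux W 3 4 ((EK W).Ψ₃) ((EK W).Ψ₃_ne_zero three_ne_zero_Kb)
    ((EK W).natDegree_Ψ₃_le)
    (fun P hP h3 => by
      rw [eval_Ψ₃]; exact psi3_eq_zero_of_three_torsion hP h3)
  simpa using this

lemma card_V5_le (W : WeierstrassCurve ℤ) :
    Finite (Vn W 5) ∧ Nat.card (Vn W 5) ≤ 5 ^ 2 := by
  have h5' : ((5 : ℕ) : Kb) ≠ 0 := by exact_mod_cast five_ne_zero_Kb
  have hdeg : ((EK W).preΨ' 5).natDegree ≤ 12 := by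
    have := (EK W).natDegree_preΨ'_le 5
    have hodd : ¬ Even 5 := by decide
    simpa [hodd] using this
  have := card_V_le_aux W 5 12 ((EK W).preΨ' 5) ((EK W).preΨ'_ne_zero h5') hdeg
    (fun P hP h5 => by
      rw [eval_preΨ'_five]; exact psi5_eq_zero_of_five_torsion hP h5)
  simpa using this

lemma nontrivial_V3 (W : WeierstrassCurve ℤ) (hΔ : W.Δ ≠ 0) : Nontrivial (Vn W 3) := by
  obtain ⟨P, hP, h3⟩ := exists_three_torsion (W := EK W) (EK_Δ_ne_zero W hΔ) three_ne_zero_Kb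
  refine ⟨⟨⟨P, (mem_Vn_iff W 3 P).mpr h3⟩, 0, ?_⟩⟩
  intro h
  exact hP (congrArg Subtype.val h)

lemma nontrivial_V5 (W : WeierstrassCurve ℤ) (hΔ : W.Δ ≠ 0) : Nontrivial (Vn W 5) := by
  obtain ⟨P, hP, h5⟩ := exists_five_torsion (W := EK W) (EK_Δ_ne_zero W hΔ) five_ne_zero_Kb
  refine ⟨⟨⟨P, (mem_Vn_iff W 5 P).mpr h5⟩, 0, ?_⟩⟩
  intro h
  exact hP (congrArg Subtype.val h)

end

end Fermat.Agent.S51.Main
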