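import Mathlib.AlgebraicGeometry.EllipticCurve.Affine.Point
import Mathlib.Tactic.LinearCombination
import Mathlib.Tactic.FieldSimp

set_option autoImplicit false

namespace Fermat.Agent.S51.Main

open WeierstrassCurve WeierstrassCurve.Affine

variable {F : Type*} [Field F]

/-- `ψ₂²` as a function of `x`: the denominator of the duplication formula. -/
def Bp (W : WeierstrassCurve F) (x : F) : F := 4*x^3 + W.b₂*x^2 + 2*W.b₄*x + W.b₆

/-- The numerator of the duplication formula. -/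
def Ap (W : WeierstrassCurve F) (x : F) : F := x^4 - W.b₄*x^2 - 2*W.b₆*x - W.b₈

/-- The 3-division polynomial evaluated at `x`. -/
def psi3 (W : WeierstrassCurve F) (x : F) : F :=
  3*x^4 + W.b₂*x^3 + 3*W.b₄*x^2 + 3*W.b₆*x + W.b₈

lemma psi3_eq (W : WeierstrassCurve F) (x : F) : psi3 W x = x * Bp W x - Ap W x := by
  unfold psi3 Bp Ap; ring

variable {W : Affine F}

lemma sq_sub_negY {x y : F} (h : W.Equation x y) : (y - W.negY x y)^2 = Bp W x := by
  rw [equation_iff] at h
  unfold Bp negY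
  simp only [WeierstrassCurve.b₂, WeierstrassCurve.b₄, WeierstrassCurve.b₆]
  linear_combination 4 * h

lemma Bp_ne_zero_iff {x y : F} (h : W.Equation x y) : Bp W x ≠ 0 ↔ y ≠ W.negY x y := by
  rw [← sq_sub_negY h, ne_eq, ne_eq, sq_eq_zero_iff, sub_eq_zero]

lemma Bp_eq_zero_iff {x y : F} (h : W.Equation x y) : Bp W x = 0 ↔ y = W.negY x y := by
  rw [← sq_sub_negY h, sq_eq_zero_iff, sub_eq_zero]

/-- On the curve, `A(x) = num² + a₁ num ψ₂ - (a₂ + 2x) ψ₂²`. -/
lemma Ap_eq {x y : F} (h : W.Equation x y) :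
    Ap W x = (3*x^2 + 2*W.a₂*x + W.a₄ - W.a₁*y)^2
      + W.a₁ * (3*x^2 + 2*W.a₂*x + W.a₄ - W.a₁*y) * (y - W.negY x y)
      - (W.a₂ + 2*x) * (y - W.negY x y)^2 := by
  rw [equation_iff] at h
  unfold Ap negY
  simp only [WeierstrassCurve.b₄, WeierstrassCurve.b₆, WeierstrassCurve.b₈]
  linear_combination (W.a₁^2 + 4*W.a₂ + 8*x) * h

variable [DecidableEq F]

/-- The duplication formula for the `x`-coordinate. -/
lemma addX_self_mul_Bp {x y : F} (h : W.Equation x y) (hy : y ≠ W.negY x y) :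
    W.addX x x (W.slope x x y y) * Bp W x = Ap W x := by
  have hy' : y - W.negY x y ≠ 0 := sub_ne_zero.mpr hy
  rw [slope_of_Y_ne rfl hy, Ap_eq h, ← sq_sub_negY h]
  unfold addX
  field_simp
  ring

/-- A nonsingular 2-torsion point has `A(x) ≠ 0`. -/
lemma Ap_ne_zero_of_Bp_eq_zero {x y : F} (h : W.Nonsingular x y) (hB : Bp W x = 0) :
    Ap W x ≠ 0 := by
  have hy : y = W.negY x y := (Bp_eq_zero_iff h.1).mp hB
  have hy0 : y - W.negY x y = 0 := sub_eq_zero.mpr hy
  rw [Ap_eq h.1, hy0]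
  have hns := (nonsingular_iff _ _).mp h
  rcases hns.2 with h1 | h1
  · have : 3*x^2 + 2*W.a₂*x + W.a₄ - W.a₁*y ≠ 0 := by
      intro h0; apply h1; linear_combination -h0
    simpa using this
  · exfalso; apply h1
    have := hy
    unfold negY at this
    exact this

end Fermat.Agent.S51.Main
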