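import Fermat.Agent.S51.Main.Psi5

set_option autoImplicit false
set_option linter.unusedSectionVars false

namespace Fermat.Agent.S51.Main

open WeierstrassCurve WeierstrassCurve.Affine Polynomial

variable {F : Type*} [Field F] [DecidableEq F] {W : Affine F}

/-- Nonzero points of order dividing 5 have `ψ₅(x) = 0`. -/
lemma psi5_eq_zero_of_five_torsion {P : W.Point} (hP : P ≠ 0) (h5 : 5 • P = 0) :
    psi5 W (xc P) = 0 := by
  obtain ⟨x, y, h, x', y', h', rfl, -, hB, hB', hne, hx', hx⟩ := five_torsion_x hP h5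
  simp only [xc_some]
  have h1 := Ap_double W hx'
  rw [← hx, sub_self, zero_mul] at h1
  have h3 : psi3 W x ≠ 0 := by
    rw [psi3_eq, ← hx']
    intro h0
    have : (x - x') * Bp W x = 0 := by linear_combination h0
    rcases mul_eq_zero.mp this with h0 | h0
    · exact hne (sub_eq_zero.mp h0)
    · exact hB h0
  have : psi3 W x * psi5 W x = 0 := by linear_combination h1
  rcases mul_eq_zero.mp this with h0 | h0
  · exact absurd h0 h3
  · exact h0

/-- Nonzero points of order dividing 3 have `ψ₃(x) = 0`. -/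
lemma psi3_eq_zero_of_three_torsion {P : W.Point} (hP : P ≠ 0) (h3 : 3 • P = 0) :
    psi3 W (xc P) = 0 := by
  obtain ⟨x, y, h, rfl, -, hψ⟩ := three_torsion_x hP h3
  simpa using hψ

/-- A nonsingular point whose `x`-coordinate is a root of `ψ₅` has order dividing 5. -/
lemma five_nsmul_eq_zero_of_psi5 {x y : F} (h : W.Nonsingular x y) (hψ : psi5 W x = 0) :
    5 • Point.some x y h = 0 := by
  have hB : Bp W x ≠ 0 := by
    intro hB
    have hA := Ap_ne_zero_of_Bp_eq_zero h hB
    have h3 : psi3 W x = 0 := by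
      unfold psi5 at hψ
      rw [hB] at hψ
      have : (psi3 W x)^3 = 0 := by linear_combination -hψ
      exact pow_eq_zero_iff (by norm_num) |>.mp this
    rw [psi3_eq, hB, mul_zero, zero_sub, neg_eq_zero] at h3
    exact hA h3
  obtain ⟨x', y', h', h2, hx'⟩ := add_self_some h hB
  have hI1 := Bp_double W hx'
  have hI2 := Ap_double W hx'
  have h3 : psi3 W x ≠ 0 := by
    intro h3
    have hp4 : pre4 W x = 0 := by
      unfold psi5 at hψ
      rw [h3] at hψ
      have : pre4 W x * (Bp W x)^2 = 0 := by linear_combination hψ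
      rcases mul_eq_zero.mp this with h0 | h0
      · exact h0
      · exact absurd (pow_eq_zero_iff (by norm_num) |>.mp h0) hB
    have hxx : x' = x := by
      rw [psi3_eq] at h3
      have : (x' - x) * Bp W x = 0 := by linear_combination hx' - h3
      rcases mul_eq_zero.mp this with h0 | h0
      · exact sub_eq_zero.mp h0
      · exact absurd h0 hB
    rw [hxx, hp4] at hI1
    have : (Bp W x)^4 = 0 := by linear_combination hI1
    exact hB (pow_eq_zero_iff (by norm_num) |>.mp this)
  have hp4 : pre4 W x ≠ 0 := by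
    intro hp4
    unfold psi5 at hψ
    rw [hp4] at hψ
    have : (psi3 W x)^3 = 0 := by linear_combination -hψ
    exact h3 (pow_eq_zero_iff (by norm_num) |>.mp this)
  have hB' : Bp W x' ≠ 0 := by
    intro hB'
    rw [hB', zero_mul] at hI1
    exact hp4 (pow_eq_zero_iff (by norm_num) |>.mp hI1.symm)
  have hx : x * Bp W x' = Ap W x' := by
    rw [hψ, mul_zero, neg_zero] at hI2
    rcases mul_eq_zero.mp hI2 with h0 | h0
    · linear_combination -h0
    · exact absurd (pow_eq_zero_iff (by norm_num) |>.mp h0) hB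
  obtain ⟨x'', y'', h'', h4, hx''⟩ := add_self_some h' hB'
  have hxx : x'' = x := by
    have : (x'' - x) * Bp W x' = 0 := by linear_combination hx'' - hx
    rcases mul_eq_zero.mp this with h0 | h0
    · exact sub_eq_zero.mp h0
    · exact absurd h0 hB'
  have e5 : 5 • Point.some x y h
      = ((Point.some x y h + Point.some x y h) + (Point.some x y h + Point.some x y h))
        + Point.some x y h := by
    rw [show (5 : ℕ) = 2 + 2 + 1 from rfl, add_nsmul, add_nsmul, two_nsmul, one_nsmul]
  rw [e5, h2, h4]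
  rcases Point.X_eq_iff.mp hxx with h0 | h0
  · -- 4P = P, so 3P = 0, so ψ₃(x) = 0: contradiction
    exfalso
    have h3P : 3 • Point.some x y h = 0 := by
      have e4 : Point.some x y h + 3 • Point.some x y h = Point.some x y h := by
        have : Point.some x y h + 3 • Point.some x y h
            = (Point.some x y h + Point.some x y h) + (Point.some x y h + Point.some x y h) := by
          rw [show (3 : ℕ) = 1 + 1 + 1 from rfl, add_nsmul, add_nsmul, one_nsmul]
          abel
        rw [this, h2, h4, h0]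
      exact add_eq_left.mp e4
    have := psi3_eq_zero_of_three_torsion (Point.some_ne_zero h) h3P
    exact h3 (by simpa using this)
  · rw [h0]; exact neg_add_cancel _

section AlgClosed

variable [IsAlgClosed F]

/-- Over an algebraically closed field every `x` is the `x`-coordinate of a point on a
nonsingular Weierstrass curve. -/
lemma exists_point_of_x (hΔ : W.Δ ≠ 0) (x : F) : ∃ (y : F), W.Nonsingular x y := by
  obtain ⟨y, hy⟩ := IsAlgClosed.exists_root
    (X^2 + C (W.a₁*x + W.a₃) * X - C (x^3 + W.a₂*x^2 + W.a₄*x + W.a₆) : F[X]) (by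
      have : (X^2 + C (W.a₁*x + W.a₃) * X - C (x^3 + W.a₂*x^2 + W.a₄*x + W.a₆) : F[X]).degree
          = 2 := by
        compute_degree!
      rw [this]; norm_num)
  refine ⟨y, (equation_iff_nonsingular_of_Δ_ne_zero hΔ).mp ?_⟩
  rw [equation_iff]
  simp only [IsRoot.def, eval_sub, eval_add, eval_pow, eval_X, eval_mul, eval_C] at hy
  linear_combination hy

lemma exists_three_torsion (hΔ : W.Δ ≠ 0) (h3 : (3 : F) ≠ 0) :
    ∃ P : W.Point, P ≠ 0 ∧ 3 • P = 0 := by
  obtain ⟨x, hx⟩ := IsAlgClosed.exists_root W.Ψ₃ (by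
    rw [degree_eq_natDegree (W.Ψ₃_ne_zero h3), W.natDegree_Ψ₃ h3]; norm_num)
  obtain ⟨y, hy⟩ := exists_point_of_x hΔ x
  refine ⟨Point.some x y hy, Point.some_ne_zero hy, three_nsmul_eq_zero_of_psi3 hy ?_⟩
  rw [← eval_Ψ₃]; exact hx

lemma exists_five_torsion (hΔ : W.Δ ≠ 0) (h5 : (5 : F) ≠ 0) :
    ∃ P : W.Point, P ≠ 0 ∧ 5 • P = 0 := by
  have h5' : ((5 : ℕ) : F) ≠ 0 := by exact_mod_cast h5
  obtain ⟨x, hx⟩ := IsAlgClosed.exists_root (W.preΨ' 5) (by
    have hodd : ¬ Even 5 := by decide
    rw [degree_eq_natDegree (W.preΨ'_ne_zero h5'), W.natDegree_preΨ' h5']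
    simp [hodd])
  obtain ⟨y, hy⟩ := exists_point_of_x hΔ x
  refine ⟨Point.some x y hy, Point.some_ne_zero hy, five_nsmul_eq_zero_of_psi5 hy ?_⟩
  rw [← eval_preΨ'_five]; exact hx

end AlgClosed

end Fermat.Agent.S51.Main
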