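import Fermat.Agent.S51.Main.Assemble
import Fermat.Agent.S51.Descent
import Fermat.Agent.S51.Final

/-!
# S51: from the rational invariants to a contradiction with semistability
-/

set_option autoImplicit false

namespace Fermat.Agent.S51.Main

/-- A semistable curve cannot carry rational invariants `s`, `v` as produced by a pair of stable
lines of orders `3` and `5`: the point `(v, y)` would be a rational point of `X₀(15)`, and the
finitely many possibilities give `j`-invariants incompatible with semistability. -/
theorem not_invariants (W : WeierstrassCurve ℤ) (hΔ : W.Δ ≠ 0) (hW : W.IsSemistableModel)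
    (s v : ℚ) (hs : s ≠ 0) (hv : v ≠ 0)
    (hj : (W.c₄ : ℚ)^3 * s = (W.Δ : ℚ) * (s + 27) * (s + 3)^3)
    (hkey : (v+1)*s^2 + 5*v^3*s - (v-9)*v^5 = 0) : False := by
  have hy : ((2*(v+1)*s + 5*v^3) / v^2)^2 = v * (v - 4) * (4*v + 9) := by
    rw [div_pow, div_eq_iff (pow_ne_zero 2 (pow_ne_zero 2 hv))]
    linear_combination 4*(v+1) * hkey
  rcases x15_rational_points v _ hy with h | h | h | h | h
  · exact hv h
  · -- `v = 4`
    subst h
    have h2 : (s + 32)^2 = 0 := by linear_combination (1/5) * hkey
    have hs' : s = -32 := by
      have := pow_eq_zero_iff (two_ne_zero) |>.mp h2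
      linarith
    exact semistable_j_contra W hΔ hW s (Or.inl hs') hj
  · -- `v = -9/4`
    subst h
    have h2 : (32*s + 729)^2 = 0 := by linear_combination (-4096/5) * hkey
    have hs' : s = -729/32 := by
      have := pow_eq_zero_iff (two_ne_zero) |>.mp h2
      linarith
    exact semistable_j_contra W hΔ hW s (Or.inr (Or.inl hs')) hj
  · -- `v = 9`
    subst h
    have h2 : s * (2*s + 729) = 0 := by linear_combination (1/5) * hkey
    have hs' : s = -729/2 := by
      rcases mul_eq_zero.mp h2 with h0 | h0
      · exact absurd h0 hs
      · linarith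
    exact semistable_j_contra W hΔ hW s (Or.inr (Or.inr (Or.inl hs'))) hj
  · -- `v = -1`
    subst h
    have hs' : s = -2 := by linear_combination (-1/5) * hkey
    exact semistable_j_contra W hΔ hW s (Or.inr (Or.inr (Or.inr hs'))) hj

/-- For a semistable integral Weierstrass curve, at least one of the mod `3` and mod `5`
representations is irreducible. -/
theorem mod_three_or_five (W : WeierstrassCurve ℤ) (hΔ : W.Δ ≠ 0) (hW : W.IsSemistableModel) :
    W.ModRepIsIrreducible 3 ∨ W.ModRepIsIrreducible 5 := by
  by_contra hcon
  rw [not_or] at hcon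
  obtain ⟨s, v, hs, hv, hj, hkey⟩ := exists_invariants W hΔ hcon.1 hcon.2
  exact not_invariants W hΔ hW s v hs hv hj hkey

end Fermat.Agent.S51.Main
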