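import Fermat.Agent.S51.Main.Stable

/-!
# S51: Galois action on the `x`-coordinates of stable points, and descent to `ℚ`
-/

set_option autoImplicit false
set_option linter.unusedSectionVars false
set_option linter.style.haveILetI false

namespace Fermat.Agent.S51.Main

open WeierstrassCurve WeierstrassCurve.Affine WeierstrassCurve.Affine.Point

noncomputable section

theorem isGalois_rat_algClosure : IsGalois ℚ Kb := by
  have e : (AlgebraicClosure.instAlgebra ℚ : Algebra ℚ Kb) = DivisionRing.toRatAlgebra :=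
    Subsingleton.elim _ _
  have h : @IsGalois ℚ _ Kb _ (AlgebraicClosure.instAlgebra ℚ) := inferInstance
  rw [e] at h
  exact h

/-- An element of `ℚ̄` fixed by the absolute Galois group is rational. -/
theorem exists_rat_of_fixed (z : Kb) (h : ∀ σ : Kb ≃ₐ[ℚ] Kb, σ z = z) :
    ∃ q : ℚ, ((q : ℚ) : Kb) = z := by
  haveI := isGalois_rat_algClosure
  have := (InfiniteGalois.mem_bot_iff_fixed (k := ℚ) (K := Kb) z).mpr h
  rw [IntermediateField.mem_bot] at this
  obtain ⟨q, hq⟩ := this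
  exact ⟨q, by rw [← hq, eq_ratCast]⟩

lemma sigma_x_three (W : WeierstrassCurve ℤ) {P : (EK W).Point} (hP : P ≠ 0) (h3 : 3 • P = 0)
    (σ : Kb ≃ₐ[ℚ] Kb) (hσ : ∃ k : ℕ, σ • P = k • P) : σ (xc P) = xc P := by
  obtain ⟨k, hk⟩ := hσ
  rw [← xc_smul]
  rcases multiple_three h3 k with h | h | h
  · exact absurd (hk.trans h) (smul_ne_zero_of_ne_zero W σ hP)
  · rw [hk, h]
  · rw [hk, h, xc_neg]

lemma sigma_x_five (W : WeierstrassCurve ℤ) {P : (EK W).Point} (hP : P ≠ 0) (h5 : 5 • P = 0)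
    (σ : Kb ≃ₐ[ℚ] Kb) (hσ : ∃ k : ℕ, σ • P = k • P) :
    (σ (xc P) = xc P ∧ σ (xc (P + P)) = xc (P + P)) ∨
    (σ (xc P) = xc (P + P) ∧ σ (xc (P + P)) = xc P) := by
  obtain ⟨k, hk⟩ := hσ
  have e5 : ((P + P) + (P + P)) + P = 0 := by
    rw [← h5, show (5 : ℕ) = 2 + 2 + 1 from rfl, add_nsmul, add_nsmul, two_nsmul, one_nsmul]
  have e4 : (P + P) + (P + P) = -P := eq_neg_of_add_eq_zero_left e5
  have hadd : σ • (P + P) = σ • P + σ • P :=
    instDistribMulActionAlgEquiv.smul_add σ P P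
  rw [← xc_smul, ← xc_smul, hadd]
  rcases multiple_five h5 k with h | h | h | h | h
  · exact absurd (hk.trans h) (smul_ne_zero_of_ne_zero W σ hP)
  · left; rw [hk, h]; exact ⟨rfl, rfl⟩
  · left; rw [hk, h]; refine ⟨xc_neg _, ?_⟩; rw [← neg_add, xc_neg]
  · right; rw [hk, h]; refine ⟨rfl, ?_⟩
    rw [e4, xc_neg]
  · right; rw [hk, h]; refine ⟨xc_neg _, ?_⟩
    rw [← neg_add, e4, neg_neg]

/-- A point of order `3` is not a nonzero multiple of a point of order `5`. -/
lemma eq_zero_of_three_five {G : Type*} [AddCommGroup G] {P Q : G} (h3 : 3 • P = 0)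
    (h5 : 5 • Q = 0) (h : P = Q ∨ P = -Q ∨ P = Q + Q ∨ P = -(Q + Q)) : P = 0 := by
  have h5P : 5 • P = 0 := by
    rcases h with h | h | h | h <;> subst h
    · exact h5
    · rw [smul_neg, h5, _root_.neg_zero]
    · rw [smul_add, h5, add_zero]
    · rw [smul_neg, smul_add, h5, add_zero, _root_.neg_zero]
  have e : P = 2 • (3 • P) - 5 • P := by abel
  rw [e, h3, h5P]
  simp

end

end Fermat.Agent.S51.Main
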