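import Mathlib.Tactic.LinearCombination
import Mathlib.Tactic.FieldSimp
import Mathlib.Algebra.Field.Basic

namespace Fermat.Agent.S51.Main

variable {K : Type*} [Field K]

/-- Normalised key identity on `X_0(15)`: Tate normal form parameter `c` (5-torsion point at the
origin, its double at `x = c`) and `ξ` the `x`-coordinate of a 3-torsion point. -/
theorem key_normal (c ξ : K)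
    (hΨ : 3*ξ^4 + (c^2-6*c+1)*ξ^3 + 3*(c^2-c)*ξ^2 + 3*c^2*ξ - c^3 = 0) :
    (ξ*(ξ-c) - c^2) * (c^2-11*c-1)^2 * (ξ*(ξ-c))^5
      - 5*c*(c^2-11*c-1) * (4*ξ^3 + (c^2-6*c+1)*ξ^2 + 2*(c^2-c)*ξ + c^2)^2 * (ξ*(ξ-c))^3
      - (c^2 + 9*(ξ*(ξ-c))) * (4*ξ^3 + (c^2-6*c+1)*ξ^2 + 2*(c^2-c)*ξ + c^2)^4 = 0 := by
  linear_combination (-c^8*ξ^5 + 9*c^7*ξ^6 + 48*c^7*ξ^5 + 50*c^7*ξ^4 + 51*c^7*ξ^3 + 28*c^7*ξ^2 + 8*c^7*ξ + c^7 - 9*c^6*ξ^7 - 205*c^6*ξ^6 - 528*c^6*ξ^5 - 524*c^6*ξ^4 - 352*c^6*ξ^3 - 117*c^6*ξ^2 - 14*c^6*ξ + 274*c^5*ξ^7 + 1768*c^5*ξ^6 + 2405*c^5*ξ^5 + 1802*c^5*ξ^4 + 582*c^5*ξ^3 + 64*c^5*ξ^2 - 117*c^4*ξ^8 - 2664*c^4*ξ^7 - 6117*c^4*ξ^6 - 4760*c^4*ξ^5 - 1435*c^4*ξ^4 - 145*c^4*ξ^3 + 1886*c^3*ξ^8 + 9164*c^3*ξ^7 + 7080*c^3*ξ^6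 + 1980*c^3*ξ^5 + 185*c^3*ξ^4 - 512*c^2*ξ^9 - 8051*c^2*ξ^8 - 6008*c^2*ξ^7 - 1563*c^2*ξ^6 - 136*c^2*ξ^5 + 3840*c*ξ^9 + 2722*c*ξ^8 + 662*c*ξ^7 + 54*c*ξ^6 - 768*ξ^10 - 512*ξ^9 - 117*ξ^8 - 9*ξ^7) * hΨ

end Fermat.Agent.S51.Main
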