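import Mathlib.LinearAlgebra.FiniteDimensional.Lemmas
import Mathlib.FieldTheory.Finiteness
import Mathlib.Algebra.Module.ZMod
import Mathlib.Algebra.Order.BigOperators.Group.Finset
import Mathlib.Data.Set.Finite.Lattice
import Mathlib.Data.ZMod.Basic
import Mathlib.Algebra.Field.ZMod
import Mathlib.SetTheory.Cardinal.NatCard

set_option autoImplicit false
set_option linter.style.haveILetI false

namespace Fermat.Agent.S51.Main

open Module

/-- Abstract cardinality bound: a group whose nonzero elements are detected, up to sign, by a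
function with values in a finite set `S` has at most `2 |S| + 1` elements. -/
lemma finite_and_card_le {G K : Type*} [AddCommGroup G] (x : G → K) (S : Finset K)
    (hS : ∀ P : G, P ≠ 0 → x P ∈ S)
    (hx : ∀ P Q : G, P ≠ 0 → Q ≠ 0 → x P = x Q → P = Q ∨ P = -Q) :
    Finite G ∧ Nat.card G ≤ 2 * S.card + 1 := by
  classical
  have hfin0 : ({P : G | P ≠ 0} : Set G).Finite := by
    apply Set.Finite.of_finite_fibers x
    · apply S.finite_toSet.subset
      rintro _ ⟨P, hP, rfl⟩
      exact hS P hP
    · rintro _ ⟨P₀, hP₀, rfl⟩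
      apply ((Set.finite_singleton (-P₀)).insert P₀).subset
      rintro Q ⟨hQ, hQx⟩
      rcases hx Q P₀ hQ hP₀ hQx with h | h
      · left; exact h
      · right; exact h
  have hfin : Finite G := by
    have : (Set.univ : Set G) = insert 0 {P : G | P ≠ 0} := by
      ext P; by_cases hP : P = 0 <;> simp [hP]
    have h2 : (Set.univ : Set G).Finite := by
      rw [this]; exact hfin0.insert 0
    exact Set.finite_univ_iff.mp h2
  refine ⟨hfin, ?_⟩
  haveI : Fintype G := Fintype.ofFinite G
  rw [Nat.card_eq_fintype_card, ← Finset.card_univ]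
  have hsplit : (Finset.univ : Finset G) = insert 0 (Finset.univ.filter (fun P => P ≠ 0)) := by
    ext P; by_cases hP : P = 0 <;> simp [hP]
  rw [hsplit]
  refine (Finset.card_insert_le _ _).trans ?_
  have : (Finset.univ.filter (fun P : G => P ≠ 0)).card ≤ 2 * S.card := by
    apply Finset.card_le_mul_card_image_of_maps_to (f := x)
    · intro P hP
      exact hS P (by simpa using hP)
    · intro b _
      by_cases hb : ∃ P₀ : G, P₀ ≠ 0 ∧ x P₀ = b
      · obtain ⟨P₀, hP₀, rfl⟩ := hb
        have hsub : (Finset.univ.filter (fun P : G => P ≠ 0)).filter (fun a => x a = x P₀)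
            ⊆ {P₀, -P₀} := by
          intro Q hQ
          simp only [Finset.mem_filter, Finset.mem_univ, true_and] at hQ
          simp only [Finset.mem_insert, Finset.mem_singleton]
          exact hx Q P₀ hQ.1 hP₀ hQ.2
        exact (Finset.card_le_card hsub).trans Finset.card_le_two
      · have : (Finset.univ.filter (fun P : G => P ≠ 0)).filter (fun a => x a = b) = ∅ := by
          ext Q
          simp only [Finset.mem_filter, Finset.mem_univ, true_and, Finset.notMem_empty,
            iff_false, not_and]
          intro hQ hQb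
          exact hb ⟨Q, hQ, hQb⟩
        rw [this]; simp
  omega

/-- In a vector space over `𝔽_p` with at most `p²` elements, a proper nonzero subspace is a
line. -/
lemma exists_generator_of_proper {p : ℕ} [Fact p.Prime] {V : Type*} [AddCommGroup V]
    [Module (ZMod p) V] [Finite V] (hcard : Nat.card V ≤ p ^ 2)
    (N : Submodule (ZMod p) V) (h0 : N ≠ ⊥) (h1 : N ≠ ⊤) :
    ∃ P ∈ N, P ≠ 0 ∧ ∀ Q ∈ N, ∃ c : ZMod p, c • P = Q := by
  classical
  haveI : Fintype V := Fintype.ofFinite V
  have hp : 1 < p := (Fact.out : p.Prime).one_lt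
  have hdim : finrank (ZMod p) V ≤ 2 := by
    have h := Module.card_eq_pow_finrank (K := ZMod p) (V := V)
    rw [ZMod.card] at h
    rw [Nat.card_eq_fintype_card, h] at hcard
    exact (Nat.pow_le_pow_iff_right hp).mp hcard
  have hN1 : finrank (ZMod p) N < finrank (ZMod p) V := Submodule.finrank_lt h1
  have hN0 : 0 < finrank (ZMod p) N := by
    rw [Module.finrank_pos_iff]
    exact Submodule.nontrivial_iff_ne_bot.mpr h0
  have hN : finrank (ZMod p) N = 1 := by omega
  obtain ⟨P, hPN, hP0⟩ := Submodule.exists_mem_ne_zero_of_ne_bot h0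
  refine ⟨P, hPN, hP0, fun Q hQ => ?_⟩
  have hv : (⟨P, hPN⟩ : N) ≠ 0 := by
    intro h; apply hP0; exact congrArg Subtype.val h
  obtain ⟨c, hc⟩ := (finrank_eq_one_iff_of_nonzero' (⟨P, hPN⟩ : N) hv).mp hN ⟨Q, hQ⟩
  exact ⟨c, congrArg Subtype.val hc⟩

end Fermat.Agent.S51.Main
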