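import Fermat.Agent.S51.Main.Torsion
import Mathlib.AlgebraicGeometry.EllipticCurve.DivisionPolynomial.Degree
import Mathlib.FieldTheory.IsAlgClosed.Basic

set_option autoImplicit false
set_option linter.unusedSectionVars false

namespace Fermat.Agent.S51.Main

open WeierstrassCurve WeierstrassCurve.Affine Polynomial

variable {F : Type*} [Field F]

/-- `preΨ₄` evaluated at `x`. -/
def pre4 (W : WeierstrassCurve F) (x : F) : F :=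
  2*x^6 + W.b₂*x^5 + 5*W.b₄*x^4 + 10*W.b₆*x^3 + 10*W.b₈*x^2
    + (W.b₂*W.b₈ - W.b₄*W.b₆)*x + (W.b₄*W.b₈ - W.b₆^2)

/-- The 5-division polynomial evaluated at `x`. -/
def psi5 (W : WeierstrassCurve F) (x : F) : F :=
  pre4 W x * (Bp W x)^2 - (psi3 W x)^3

lemma eval_Ψ₂Sq (W : WeierstrassCurve F) (x : F) : W.Ψ₂Sq.eval x = Bp W x := by
  simp [WeierstrassCurve.Ψ₂Sq, Bp]

lemma eval_Ψ₃ (W : WeierstrassCurve F) (x : F) : W.Ψ₃.eval x = psi3 W x := by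
  simp [WeierstrassCurve.Ψ₃, psi3]

lemma eval_preΨ₄ (W : WeierstrassCurve F) (x : F) : W.preΨ₄.eval x = pre4 W x := by
  simp [WeierstrassCurve.preΨ₄, pre4]

lemma preΨ'_five (W : WeierstrassCurve F) :
    W.preΨ' 5 = W.preΨ₄ * W.Ψ₂Sq ^ 2 - W.Ψ₃ ^ 3 := by
  have := W.preΨ'_odd 0
  simpa using this

lemma eval_preΨ'_five (W : WeierstrassCurve F) (x : F) : (W.preΨ' 5).eval x = psi5 W x := by
  rw [preΨ'_five]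
  simp [eval_Ψ₂Sq, eval_Ψ₃, eval_preΨ₄, psi5]

lemma eval_preΨ'_three (W : WeierstrassCurve F) (x : F) : (W.preΨ' 3).eval x = psi3 W x := by
  rw [WeierstrassCurve.preΨ'_three, eval_Ψ₃]

/-- identity (I₁): `ψ₂(2P)² ψ₂(P)⁶ = preΨ₄(P)²`. -/
lemma Bp_double (W : WeierstrassCurve F) {x x' : F} (hx' : x' * Bp W x = Ap W x) :
    Bp W x' * (Bp W x)^3 = (pre4 W x)^2 := by
  have e : 4*(Ap W x)^3 + W.b₂*(Ap W x)^2*(Bp W x) + 2*W.b₄*(Ap W x)*(Bp W x)^2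
      + W.b₆*(Bp W x)^3 = (pre4 W x)^2 := by
    unfold Ap Bp pre4
    linear_combination (-W.b₂^2*x^6 - 6*W.b₂*W.b₄*x^5 - 7*W.b₂*W.b₆*x^4 - 4*W.b₂*W.b₈*x^3
      - 8*W.b₂*x^7 - 8*W.b₄^2*x^4 - 16*W.b₄*W.b₆*x^3 - 8*W.b₄*W.b₈*x^2 - 28*W.b₄*x^6
      - 7*W.b₆^2*x^2 - 6*W.b₆*W.b₈*x - 38*W.b₆*x^5 - W.b₈^2 - 22*W.b₈*x^4 - 13*x^8)
      * W.b_relation
  rw [← e, ← hx']
  conv_lhs => unfold Bp
  unfold Bp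
  ring

/-- identity (I₂). -/
lemma Ap_double (W : WeierstrassCurve F) {x x' : F} (hx' : x' * Bp W x = Ap W x) :
    (Ap W x' - x * Bp W x') * (Bp W x)^4 = -(psi3 W x * psi5 W x) := by
  have e : (Ap W x)^4 - W.b₄*(Ap W x)^2*(Bp W x)^2 - 2*W.b₆*(Ap W x)*(Bp W x)^3
      - W.b₈*(Bp W x)^4
      - x * (Bp W x) * (4*(Ap W x)^3 + W.b₂*(Ap W x)^2*(Bp W x) + 2*W.b₄*(Ap W x)*(Bp W x)^2
        + W.b₆*(Bp W x)^3) = -(psi3 W x * psi5 W x) := by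
    unfold psi5 psi3 Ap Bp pre4
    linear_combination (W.b₂^3*x^9 + 7*W.b₂^2*W.b₄*x^8 + 5*W.b₂^2*W.b₆*x^7 + W.b₂^2*W.b₈*x^6
      + 11*W.b₂^2*x^10 + 16*W.b₂*W.b₄^2*x^7 + 22*W.b₂*W.b₄*W.b₆*x^6 + 4*W.b₂*W.b₄*W.b₈*x^5
      + 52*W.b₂*W.b₄*x^9 + 7*W.b₂*W.b₆^2*x^5 + 2*W.b₂*W.b₆*W.b₈*x^4 + 38*W.b₂*W.b₆*x^8
      + 8*W.b₂*W.b₈*x^7 + 40*W.b₂*x^11 + 12*W.b₄^3*x^6 + 24*W.b₄^2*W.b₆*x^5
      + 4*W.b₄^2*W.b₈*x^4 + 60*W.b₄^2*x^8 + 15*W.b₄*W.b₆^2*x^4 + 4*W.b₄*W.b₆*W.b₈*x^3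
      + 84*W.b₄*W.b₆*x^7 + 16*W.b₄*W.b₈*x^6 + 96*W.b₄*x^10 + 3*W.b₆^3*x^3 + W.b₆^2*W.b₈*x^2
      + 27*W.b₆^2*x^6 + 8*W.b₆*W.b₈*x^5 + 72*W.b₆*x^9 + 16*W.b₈*x^8 + 48*x^12)
      * W.b_relation
  rw [← e, ← hx']
  conv_lhs => unfold Ap Bp
  unfold Bp
  ring

end Fermat.Agent.S51.Main
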