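import Fermat.Statements.S51
import Fermat.Agent.S51.Main.Exist
import Fermat.Agent.S51.Main.Lines

set_option autoImplicit false
set_option linter.unusedSectionVars false
set_option linter.style.haveILetI false

namespace Fermat.Agent.S51.Main

open WeierstrassCurve WeierstrassCurve.Affine WeierstrassCurve.Affine.Point Polynomial

noncomputable section

/-- The algebraic closure of `ℚ`. -/
abbrev Kb := AlgebraicClosure ℚ

/-- The curve over `ℚ`. -/
abbrev WQ (W : WeierstrassCurve ℤ) : Affine ℚ := W.map (Int.castRingHom ℚ)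

/-- The base change of the curve to `ℚ̄`. -/
abbrev EK (W : WeierstrassCurve ℤ) : Affine Kb := (WQ W)⁄Kb

/-- The `n`-torsion of `E(ℚ̄)`. -/
abbrev Vn (W : WeierstrassCurve ℤ) (n : ℕ) := Submodule.torsionBy ℤ (EK W).Point n

example (W : WeierstrassCurve ℤ) (n : ℕ) : Module (ZMod n) (Vn W n) := inferInstance
example (W : WeierstrassCurve ℤ) (n : ℕ) : SMul (Kb ≃ₐ[ℚ] Kb) (Vn W n) := inferInstance

lemma modRepIsIrreducible_iff (W : WeierstrassCurve ℤ) (n : ℕ) :
    W.ModRepIsIrreducible n ↔ (Nontrivial (Vn W n) ∧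
      ∀ N : Submodule (ZMod n) (Vn W n), IsGaloisStable ℚ N → N = ⊥ ∨ N = ⊤) := Iff.rfl

lemma EK_Δ (W : WeierstrassCurve ℤ) : (EK W).Δ = algebraMap ℚ Kb ((W.Δ : ℤ) : ℚ) := by
  simp [EK, WQ, WeierstrassCurve.baseChange, WeierstrassCurve.map_Δ]

lemma EK_Δ_ne_zero (W : WeierstrassCurve ℤ) (hΔ : W.Δ ≠ 0) : (EK W).Δ ≠ 0 := by
  rw [EK_Δ]
  simpa using hΔ

lemma mem_Vn_iff (W : WeierstrassCurve ℤ) (n : ℕ) (P : (EK W).Point) :
    P ∈ Vn W n ↔ n • P = 0 := by
  rw [Submodule.mem_torsionBy_iff, natCast_zsmul]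

end

end Fermat.Agent.S51.Main
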