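import Fermat.Agent.S51.Main.Card

set_option autoImplicit false
set_option linter.unusedSectionVars false
set_option linter.style.haveILetI false

namespace Fermat.Agent.S51.Main

open WeierstrassCurve WeierstrassCurve.Affine WeierstrassCurve.Affine.Point Polynomial

noncomputable section

lemma coe_smul_Vn (W : WeierstrassCurve ℤ) (n : ℕ) (σ : Kb ≃ₐ[ℚ] Kb) (P : Vn W n) :
    ((σ • P : Vn W n) : (EK W).Point) = σ • (P : (EK W).Point) := rfl

lemma zmod_smul_coe (W : WeierstrassCurve ℤ) (p : ℕ) [NeZero p] (c : ZMod p) (P : Vn W p) :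
    ((c • P : Vn W p) : (EK W).Point) = c.val • (P : (EK W).Point) := by
  conv_lhs => rw [← ZMod.natCast_zmod_val c, Nat.cast_smul_eq_nsmul]
  rfl

/-- If the mod `p` representation is not irreducible (and `E[p]` is as expected), there is a
nonzero point of order `p` whose Galois conjugates are all multiples of it. -/
lemma exists_stable_point (W : WeierstrassCurve ℤ) (p : ℕ) [Fact p.Prime]
    (hcard : Finite (Vn W p) ∧ Nat.card (Vn W p) ≤ p ^ 2) (hnt : Nontrivial (Vn W p))
    (h : ¬ W.ModRepIsIrreducible p) :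
    ∃ P : (EK W).Point, P ≠ 0 ∧ p • P = 0 ∧ ∀ σ : Kb ≃ₐ[ℚ] Kb, ∃ k : ℕ, σ • P = k • P := by
  rw [modRepIsIrreducible_iff] at h
  push Not at h
  obtain ⟨N, hN, hN0, hN1⟩ := h hnt
  haveI := hcard.1
  obtain ⟨P, hPN, hP0, hgen⟩ := exists_generator_of_proper hcard.2 N hN0 hN1
  refine ⟨P, coe_ne_zero_of_ne_zero hP0, nsmul_coe_eq_zero P, fun σ => ?_⟩
  obtain ⟨c, hc⟩ := hgen (σ • P) (hN σ P hPN)
  refine ⟨c.val, ?_⟩
  rw [← coe_smul_Vn, ← hc, zmod_smul_coe]

lemma smul_ne_zero_of_ne_zero (W : WeierstrassCurve ℤ) (σ : Kb ≃ₐ[ℚ] Kb) {P : (EK W).Point}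
    (hP : P ≠ 0) : σ • P ≠ 0 := by
  intro h
  apply hP
  have : σ⁻¹ • (σ • P) = σ⁻¹ • (0 : (EK W).Point) := by rw [h]
  rw [inv_smul_smul] at this
  rw [this]
  exact smul_zero (A := (EK W).Point) σ⁻¹

/-- multiples of a point of order 3 -/
lemma multiple_three {G : Type*} [AddCommGroup G] {P : G} (h3 : 3 • P = 0) (k : ℕ) :
    k • P = 0 ∨ k • P = P ∨ k • P = -P := by
  have hk : k • P = (k % 3) • P := by
    conv_lhs => rw [← Nat.div_add_mod k 3, add_nsmul, mul_nsmul, h3, nsmul_zero, zero_add]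
  have : k % 3 < 3 := Nat.mod_lt _ (by norm_num)
  rw [hk]
  interval_cases (k % 3)
  · left; simp
  · right; left; simp
  · right; right
    have : 2 • P + P = 0 := by rw [← h3, show (3:ℕ) = 2 + 1 from rfl, add_nsmul, one_nsmul]
    exact eq_neg_of_add_eq_zero_left this

/-- multiples of a point of order 5 -/
lemma multiple_five {G : Type*} [AddCommGroup G] {P : G} (h5 : 5 • P = 0) (k : ℕ) :
    k • P = 0 ∨ k • P = P ∨ k • P = -P ∨ k • P = P + P ∨ k • P = -(P + P) := by
  have hk : k • P = (k % 5) • P := by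
    conv_lhs => rw [← Nat.div_add_mod k 5, add_nsmul, mul_nsmul, h5, nsmul_zero, zero_add]
  have : k % 5 < 5 := Nat.mod_lt _ (by norm_num)
  rw [hk]
  interval_cases (k % 5)
  · left; simp
  · right; left; simp
  · right; right; right; left; rw [two_nsmul]
  · right; right; right; right
    have : 3 • P + (P + P) = 0 := by
      rw [← h5, show (5:ℕ) = 3 + 2 from rfl, add_nsmul, two_nsmul]
    exact eq_neg_of_add_eq_zero_left this
  · right; right; left
    have : 4 • P + P = 0 := by
      rw [← h5, show (5:ℕ) = 4 + 1 from rfl, add_nsmul, one_nsmul]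
    exact eq_neg_of_add_eq_zero_left this

end

end Fermat.Agent.S51.Main
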