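import Fermat.Agent.S51.Main.Doubling

set_option autoImplicit false
set_option linter.unusedSectionVars false

namespace Fermat.Agent.S51.Main

open WeierstrassCurve WeierstrassCurve.Affine

variable {F : Type*} [Field F] [DecidableEq F] {W : Affine F}

/-- The `x`-coordinate of a point (junk value `0` at infinity). -/
def xc : W.Point → F
  | .zero => 0
  | .some x _ _ => x

@[simp] lemma xc_some {x y : F} (h : W.Nonsingular x y) : xc (Point.some x y h) = x := rfl

lemma xc_neg (P : W.Point) : xc (-P) = xc P := by
  cases P <;> rfl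

lemma add_self_eq_zero_iff {x y : F} (h : W.Nonsingular x y) :
    (Point.some x y h) + (Point.some x y h) = 0 ↔ Bp W x = 0 := by
  rw [Bp_eq_zero_iff h.1]
  constructor
  · intro h0
    by_contra hy
    rw [Point.add_self_of_Y_ne hy] at h0
    exact Point.some_ne_zero _ h0
  · intro hy
    exact Point.add_self_of_Y_eq hy

lemma add_self_some {x y : F} (h : W.Nonsingular x y) (hB : Bp W x ≠ 0) :
    ∃ (x' y' : F) (h' : W.Nonsingular x' y'),
      (Point.some x y h) + (Point.some x y h) = Point.some x' y' h' ∧ x' * Bp W x = Ap W x := by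
  have hy : y ≠ W.negY x y := (Bp_ne_zero_iff h.1).mp hB
  exact ⟨_, _, _, Point.add_self_of_Y_ne hy, addX_self_mul_Bp h.1 hy⟩

lemma eq_or_eq_neg_of_xc_eq {P Q : W.Point} (hP : P ≠ 0) (hQ : Q ≠ 0) (h : xc P = xc Q) :
    P = Q ∨ P = -Q := by
  match P, Q, hP, hQ, h with
  | .zero, _, hP, _, _ => exact absurd rfl hP
  | _, .zero, _, hQ, _ => exact absurd rfl hQ
  | .some x₁ y₁ h₁, .some x₂ y₂ h₂, _, _, h =>
    simp only [xc_some] at h
    exact Point.X_eq_iff.mp h

/-- Nonzero points of order dividing `3` have `ψ₃(x) = 0`. -/
lemma three_torsion_x {P : W.Point} (hP : P ≠ 0) (h3 : 3 • P = 0) :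
    ∃ (x y : F) (h : W.Nonsingular x y), P = Point.some x y h ∧ Bp W x ≠ 0 ∧ psi3 W x = 0 := by
  match P, hP, h3 with
  | .zero, hP, _ => exact absurd rfl hP
  | .some x y h, hP, h3 =>
    refine ⟨x, y, h, rfl, ?_, ?_⟩
    · intro hB
      have h2 : Point.some x y h + Point.some x y h = 0 := (add_self_eq_zero_iff h).mpr hB
      have : 3 • Point.some x y h = Point.some x y h := by
        rw [show (3 : ℕ) = 2 + 1 from rfl, add_nsmul, two_nsmul, h2, one_nsmul, zero_add]
      rw [this] at h3
      exact hP h3
    · have hB : Bp W x ≠ 0 := by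
        intro hB
        have h2 : Point.some x y h + Point.some x y h = 0 := (add_self_eq_zero_iff h).mpr hB
        have : 3 • Point.some x y h = Point.some x y h := by
          rw [show (3 : ℕ) = 2 + 1 from rfl, add_nsmul, two_nsmul, h2, one_nsmul, zero_add]
        rw [this] at h3
        exact hP h3
      obtain ⟨x', y', h', h2, hx'⟩ := add_self_some h hB
      have h2' : Point.some x' y' h' = -Point.some x y h := by
        rw [← h2]
        have : 3 • Point.some x y h = (Point.some x y h + Point.some x y h) + Point.some x y h := by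
          rw [show (3 : ℕ) = 2 + 1 from rfl, add_nsmul, two_nsmul, one_nsmul]
        rw [this] at h3
        exact eq_neg_of_add_eq_zero_left h3
      have hxx : x' = x := by
        have := congrArg xc h2'
        rw [xc_neg] at this
        simpa using this
      rw [psi3_eq, ← hx', hxx]
      ring

/-- A nonsingular point with `ψ₃(x) = 0` has order dividing `3`. -/
lemma three_nsmul_eq_zero_of_psi3 {x y : F} (h : W.Nonsingular x y) (hψ : psi3 W x = 0) :
    3 • Point.some x y h = 0 := by
  have hB : Bp W x ≠ 0 := by
    intro hB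
    have hA := Ap_ne_zero_of_Bp_eq_zero h hB
    rw [psi3_eq, hB, mul_zero, zero_sub, neg_eq_zero] at hψ
    exact hA hψ
  obtain ⟨x', y', h', h2, hx'⟩ := add_self_some h hB
  have hxx : x' = x := by
    rw [psi3_eq] at hψ
    have : (x' - x) * Bp W x = 0 := by linear_combination hx' - hψ
    rcases mul_eq_zero.mp this with h0 | h0
    · exact sub_eq_zero.mp h0
    · exact absurd h0 hB
  have h3 : 3 • Point.some x y h = (Point.some x y h + Point.some x y h) + Point.some x y h := by
    rw [show (3 : ℕ) = 2 + 1 from rfl, add_nsmul, two_nsmul, one_nsmul]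
  rw [h3, h2]
  rcases Point.X_eq_iff.mp hxx with h0 | h0
  · -- 2P = P, so P = 0: impossible
    exfalso
    have : Point.some x y h + Point.some x y h = Point.some x y h := h2.trans h0
    exact Point.some_ne_zero _ (add_eq_left.mp this)
  · rw [h0]; exact neg_add_cancel _

end Fermat.Agent.S51.Main

namespace Fermat.Agent.S51.Main

open WeierstrassCurve WeierstrassCurve.Affine

variable {F : Type*} [Field F] [DecidableEq F] {W : Affine F}

/-- Nonzero points of order dividing `5`: the `x`-coordinates `x` of `P` and `x'` of `2P` are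
exchanged by the duplication map. -/
lemma five_torsion_x {P : W.Point} (hP : P ≠ 0) (h5 : 5 • P = 0) :
    ∃ (x y : F) (h : W.Nonsingular x y) (x' y' : F) (h' : W.Nonsingular x' y'),
      P = Point.some x y h ∧ P + P = Point.some x' y' h' ∧
      Bp W x ≠ 0 ∧ Bp W x' ≠ 0 ∧ x ≠ x' ∧ x' * Bp W x = Ap W x ∧ x * Bp W x' = Ap W x' := by
  match P, hP, h5 with
  | .zero, hP, _ => exact absurd rfl hP
  | .some x y h, hP, h5 =>
    have e5 : 5 • Point.some x y h
        = ((Point.some x y h + Point.some x y h) + (Point.some x y h + Point.some x y h))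
          + Point.some x y h := by
      rw [show (5 : ℕ) = 2 + 2 + 1 from rfl, add_nsmul, add_nsmul, two_nsmul, one_nsmul]
    rw [e5] at h5
    have hB : Bp W x ≠ 0 := by
      intro hB
      have h2 : Point.some x y h + Point.some x y h = 0 := (add_self_eq_zero_iff h).mpr hB
      rw [h2, add_zero, zero_add] at h5
      exact hP h5
    obtain ⟨x', y', h', h2, hx'⟩ := add_self_some h hB
    rw [h2] at h5
    have hB' : Bp W x' ≠ 0 := by
      intro hB'
      have h4 : Point.some x' y' h' + Point.some x' y' h' = 0 := (add_self_eq_zero_iff h').mpr hB'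
      rw [h4, zero_add] at h5
      exact hP h5
    obtain ⟨x'', y'', h'', h4, hx''⟩ := add_self_some h' hB'
    rw [h4] at h5
    have h4' : Point.some x'' y'' h'' = -Point.some x y h := eq_neg_of_add_eq_zero_left h5
    have hxx : x'' = x := by
      have := congrArg xc h4'
      rw [xc_neg] at this
      simpa using this
    refine ⟨x, y, h, x', y', h', rfl, h2, hB, hB', ?_, hx', ?_⟩
    · -- x ≠ x'
      intro hxx'
      rcases Point.X_eq_iff.mp hxx' with h0 | h0
      · -- P = 2P
        have : Point.some x y h + Point.some x y h = Point.some x y h := h2.trans h0.symm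
        exact hP (add_eq_left.mp this)
      · -- P = -2P, so 3P = 0, so with 5P = 0, P = 0
        have h3 : Point.some x' y' h' + Point.some x y h = 0 := by
          rw [h0]; exact add_neg_cancel _
        -- 4P = P + 3P... : 4P = 2P + 2P = -P
        have h4'' : Point.some x' y' h' + Point.some x' y' h' = -Point.some x y h := by
          rw [h4]; exact h4'
        -- 2P = -P from h3
        have h2' : Point.some x' y' h' = -Point.some x y h := eq_neg_of_add_eq_zero_left h3
        rw [h2'] at h4''
        -- -P + -P = -P → -P = 0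
        have : -Point.some x y h = 0 := add_eq_left.mp h4''
        exact hP (neg_eq_zero.mp this)
    · rw [← hxx]; exact hx''

end Fermat.Agent.S51.Main
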